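import Fermat.Agent.M59.SinkA.Big.Seams
import Fermat.Agent.S44.WJ.Main

/-!
# M59 / SINK A, cell [W-J] (helper20; prefix `m59saw_`): twin of main's `S44/WJ/Main.lean`

The Atkin–Lehner involution `W_p` on `J₀(M p)` (main's generic `s44w_WJ`) satisfies
`m59sabg_IsALp (m59sa_frame2 P M hpM)`; hence [BIG] for the frame `m59sa_frame2 P M hpM` follows
from the sub-cells `m59sabg_Cells` alone (`m59saw_big`).
-/

set_option autoImplicit false
set_option linter.unusedSectionVars false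

noncomputable section

namespace Fermat.Agent.M59

open Fermat.Agent.S44 Fermat.Agent.S58
open ModularCurve AlgebraicCurve Fermat.Agent.S24 Fermat.Agent.JT3 Fermat.Agent.S35
  Fermat.Agent.SS WeierstrassCurve WeierstrassCurve.Affine WeierstrassCurve.Affine.Point

section

variable (P : m59sa_Pkg) (M : ℕ) [NeZero M] [NeZero (M * P.p)] (hpM : ¬ P.p ∣ M)

/-- depth at `w_∞` of `W_p z` from depth at `w_0` of `z`. -/
theorem m59saw_depth_id_of_W {c : s44_Qb} {z : JZero (M * P.p)}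
    (h : s44f_Depth2 (M * P.p) (s44f_A P.p P.pp) P.p c (ssm_al_Wbar M P.p P.pp hpM) z) :
    s44f_Depth2 (M * P.p) (s44f_A P.p P.pp) P.p c (AlgHom.id _ _)
      (s44w_WJ M P.p P.pp hpM z) := by
  obtain ⟨f, hf, g, b, hg, hb, he⟩ := h
  exact ⟨ssm_al_Wbar M P.p P.pp hpM f, s44w_rep_WJ M P.p P.pp hpM hf, g, b, hg, hb, he⟩

/-- depth at `w_0` of `W_p z` from depth at `w_∞` of `z`. -/
theorem m59saw_depth_W_of_id {c : s44_Qb} {z : JZero (M * P.p)}
    (h : s44f_Depth2 (M * P.p) (s44f_A P.p P.pp) P.p c (AlgHom.id _ _) z) :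
    s44f_Depth2 (M * P.p) (s44f_A P.p P.pp) P.p c (ssm_al_Wbar M P.p P.pp hpM)
      (s44w_WJ M P.p P.pp hpM z) := by
  obtain ⟨f, hf, g, b, hg, hb, he⟩ := h
  refine ⟨ssm_al_Wbar M P.p P.pp hpM f, s44w_rep_WJ M P.p P.pp hpM hf, g, b, hg, hb, ?_⟩
  rw [s44dqn_Wbar_Wbar]
  exact he

/-- **[W-J] for the frame `m59sa_frame2 P M hpM`.** -/
theorem m59saw_isALp : m59sabg_IsALp (m59sa_frame2 P M hpM) (s44w_WJ M P.p P.pp hpM) where
  invol := fun z hz => s44w_WJ_WJ M P.p P.pp hpM z hz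
  smul := fun σ z => s44w_WJ_smul M P.p P.pp hpM σ z
  hecke := fun ℓ hℓN z hz => by
    have : NeZero (ℓ : ℕ) := ⟨ℓ.2.ne_zero⟩
    exact s44w_WJ_hecke M P.p ℓ P.pp hpM ℓ.2 hℓN z P.p P.hp0 hz
  as_W := fun z hz => s44w_as_WJ M P.p P.pp hpM z hz
  bs_W := fun z hz => s44w_bs_WJ M P.p P.pp hpM z hz
  d1inf_W := by
    rintro z hz ⟨c, hc0, hc, hd⟩
    refine ⟨c, hc0, hc, ?_⟩
    have h := m59saw_depth_W_of_id P M hpM hd
    rw [s44w_WJ_WJ M P.p P.pp hpM z hz] at h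
    exact h
  split_W := fun z _ hs c hc =>
    ⟨m59saw_depth_id_of_W P M hpM (hs c hc).2, m59saw_depth_W_of_id P M hpM (hs c hc).1⟩

variable {Sg : Type} {S : Finset ℕ} {k : Sg → ZMod P.p}
  {ν : JZero (M * P.p) → Sg → ZMod P.p}
  {B : Nat.Primes → (Sg → ZMod P.p) →+ (Sg → ZMod P.p)}

/-- **[BIG] for the frame `m59sa_frame2 P M hpM` from the sub-cells `m59sabg_Cells`.** -/
theorem m59saw_big (hirr : P.W.ModRepIsIrreducible P.p)
    (hC : m59sabg_Cells (m59sa_frame2 P M hpM) S k ν B) :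
    m59sa_Big_stmt (m59sa_frame2 P M hpM) :=
  m59sabg_big_ALp hirr hC _ (m59saw_isALp P M hpM)

/-- **[CELLS-W]**: the sub-cells of [BIG] exist for the frame `m59sa_frame2 P M hpM`
(`p ∈ {3, 5}`, `W` semistable with irreducible `W[p]`, `M` even squarefree prime to `p`). -/
def m59sa_CellsW_stmt : Prop :=
  ∀ (P : m59sa_Pkg) (M : ℕ) [NeZero M] [NeZero (M * P.p)] (hpM : ¬ P.p ∣ M),
    P.p = 3 ∨ P.p = 5 → P.W.IsSemistableModel → P.W.ModRepIsIrreducible P.p →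
    Squarefree M → 2 ∣ M →
    ∃ (Sg : Type) (S : Finset ℕ) (k : Sg → ZMod P.p) (ν : JZero (M * P.p) → Sg → ZMod P.p)
      (B : Nat.Primes → (Sg → ZMod P.p) →+ (Sg → ZMod P.p)),
      m59sabg_Cells (m59sa_frame2 P M hpM) S k ν B

/-- **[BIG] for all frames from [CELLS-W]** (the statement `m59sa_BigW_stmt` of
`SinkA/Low/Cells.lean`, unfolded). -/
theorem m59sa_bigW_of_cells (h : m59sa_CellsW_stmt)
    (P : m59sa_Pkg) (M : ℕ) [NeZero M] [NeZero (M * P.p)] (hpM : ¬ P.p ∣ M)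
    (hp : P.p = 3 ∨ P.p = 5) (hW : P.W.IsSemistableModel)
    (hirr : P.W.ModRepIsIrreducible P.p) (hsq : Squarefree M) (h2M : 2 ∣ M) :
    m59sa_Big_stmt (m59sa_frame2 P M hpM) := by
  obtain ⟨Sg, S, k, ν, B, hC⟩ := h P M hpM hp hW hirr hsq h2M
  exact m59saw_big P M hpM hirr hC

end

end Fermat.Agent.M59
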