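import Fermat.Agent.M59.SinkA.Big.OldK
import Fermat.Agent.M59.SinkA.Big.WJ
import Fermat.Agent.M59.TTwin.Final
import Fermat.Agent.M59.TTwin.UDivMain
import Fermat.Agent.S44.HeckeRes.Cells

/-!
# M59 / SINK A: the cells of [BIG] for `m59sa_frame2`, all but [H2] MONO (helper20; prefix `m59sa_`)

Twin of main's `S44/HeckeRes/Cells.lean` (`s44hz_cells_frame2`).  The tuple:

* `Sg = s44e_Sg A₀ M p`, `S = ∅`, `ν = s44e_nu A₀ M p` (main, generic);
* `k = m59ye_k2 A₀ M p` (helper11's TTwin: the weights through the weight-4 unit of level 2);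
* `B ℓ = s44hz_B A₀ hA₀ M hpM ℓ` (main, generic).

Fields: `k_ne` (`m59yhu_k2_ne` + (U-DIV) `m59yudm_udiv`, `2 ∣ M`), `ν_add` (`s44e_nu_add`),
`heckeRes` (`s44hz_heckeRes` + (★★) `s44ha_fbar_hecke` + (E2-ord) `m59so_ord`), `B_eis`
(`m59yhz_BEis`), `oldK` (`m59sak_oldK_frame2`).  The field `mono` is the hypothesis.
-/

set_option autoImplicit false
set_option linter.unusedSectionVars false
set_option linter.unusedVariables false
set_option linter.style.haveILetI false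
set_option synthInstance.maxHeartbeats 400000
set_option maxHeartbeats 1000000

noncomputable section

namespace Fermat.Agent.M59

open ModularCurve AlgebraicCurve
open Fermat.Agent.JT3 Fermat.Agent.S24 Fermat.Agent.S35 Fermat.Agent.MZ Fermat.Agent.S44

variable (P : m59sa_Pkg) (M : ℕ) [NeZero M] [NeZero (M * P.p)] (hpM : ¬ P.p ∣ M)

/-- the operator `B` of the cells tuple for `m59sa_frame2` (main's `s44hz_B`). -/
def m59sa_B_frame2 (ℓ : Nat.Primes) :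
    (s44e_Sg (s44f_A P.p P.pp) M P.p P.pp hpM → ZMod P.p) →+
      (s44e_Sg (s44f_A P.p P.pp) M P.p P.pp hpM → ZMod P.p) :=
  haveI : Fact P.p.Prime := ⟨P.pp⟩
  s44hz_B (s44f_A P.p P.pp) (s44f_A_liesOver P.p P.pp) M hpM ℓ

/-- **[H2] MONO for the frame `m59sa_frame2`**, the one field which is not a wrapper. -/
def m59sa_MonoW_stmt : Prop :=
  ∀ (P : m59sa_Pkg) (M : ℕ) [NeZero M] [NeZero (M * P.p)] (hpM : ¬ P.p ∣ M), 2 ∣ M →
    m59sabg_Mono_stmt (m59sa_frame2 P M hpM) (m59ye_k2 (s44f_A P.p P.pp) M P.p P.pp hpM)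
      (s44e_nu (s44f_A P.p P.pp) M P.p P.pp hpM)

/-- **the cells of [BIG-inf] for `m59sa_frame2`** from [H2] mono (`p` odd, `2 ∣ M`). -/
theorem m59sa_cells_frame2 (h2M : 2 ∣ M)
    (hmono : m59sabg_Mono_stmt (m59sa_frame2 P M hpM)
      (m59ye_k2 (s44f_A P.p P.pp) M P.p P.pp hpM) (s44e_nu (s44f_A P.p P.pp) M P.p P.pp hpM)) :
    m59sabg_Cells (m59sa_frame2 P M hpM) ∅ (m59ye_k2 (s44f_A P.p P.pp) M P.p P.pp hpM)
      (s44e_nu (s44f_A P.p P.pp) M P.p P.pp hpM) (m59sa_B_frame2 P M hpM) := by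
  haveI : Fact P.p.Prime := ⟨P.pp⟩
  have hA := s44f_A_liesOver P.p P.pp
  have hp2' : ¬ 2 ∣ P.p := fun h =>
    P.hp2 ((Nat.prime_dvd_prime_iff_eq Nat.prime_two P.pp).1 h).symm
  have hU : m59ye_UDiv (s44f_A P.p P.pp) M P.p P.pp hpM :=
    m59yudm_udiv (s44f_A P.p P.pp) hA M hpM hp2' h2M
  have hoff : s44e_OrdOff (s44f_A P.p P.pp) hA M hpM :=
    m59so_ord (s44f_A P.p P.pp) hA M hpM P.hp2 h2M
  have hHecke : ∀ ℓ : Nat.Primes, ¬ (ℓ : ℕ) ∣ M * P.p → ∀ (z : JZero (M * P.p))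
      (fb : s44e_FF (s44f_A P.p P.pp) M),
      P.p • z = 0 → s44e_Fbar (s44f_A P.p P.pp) M P.p z fb →
      s44e_Fbar (s44f_A P.p P.pp) M P.p (heckeOperatorBar (M * P.p) ℓ z)
        (haveI : NeZero (ℓ : ℕ) := ⟨ℓ.2.ne_zero⟩
         s35pe_normAlong (mzrh_alC (s44e_kA (s44f_A P.p P.pp)) M ℓ)
          (mzrh_beC (s44e_kA (s44f_A P.p P.pp)) M ℓ fb)) :=
    fun ℓ hℓN z fb hz h => s44ha_fbar_hecke (s44f_A P.p P.pp) hA M hpM ℓ hℓN h
  exact
    { k_ne := fun i => m59yhu_k2_ne (s44f_A P.p P.pp) M hpM P.hp2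
        (fun Q hQ => (hU Q hQ.1).1 hQ) i
      ν_add := fun z z' hz hz' => s44e_nu_add (s44f_A P.p P.pp) hA M hpM hz hz'
      mono := hmono
      heckeRes := fun ℓ hℓN _ z hz =>
        s44hz_heckeRes (s44f_A P.p P.pp) hA M hpM hHecke hoff ℓ hℓN z hz
      B_eis := fun ℓ hℓN _ =>
        m59yhz_BEis (s44f_A P.p P.pp) hA M hpM P.hp2 h2M
          (fun Q hQ => (hU Q hQ.1).1 hQ) (fun Q hj hQ => (hU Q hj).2 hQ) ℓ hℓN
      oldK := m59sak_oldK_frame2 P M hpM h2M }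

/-- **[CELLS-W] from [MONO-W].** -/
theorem m59sa_cellsW_of_mono (h : m59sa_MonoW_stmt) : m59sa_CellsW_stmt := by
  intro P M _ _ hpM _ _ _ _ h2M
  exact ⟨_, ∅, _, _, _, m59sa_cells_frame2 P M hpM h2M (h P M hpM h2M)⟩

/-- **[GEO-LOW]'s last cell [BIG] from [MONO-W]** (the body of `m59sa_BigW_stmt`). -/
theorem m59sa_bigW_of_mono (h : m59sa_MonoW_stmt)
    (P : m59sa_Pkg) (M : ℕ) [NeZero M] [NeZero (M * P.p)] (hpM : ¬ P.p ∣ M)
    (hp : P.p = 3 ∨ P.p = 5) (hW : P.W.IsSemistableModel)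
    (hirr : P.W.ModRepIsIrreducible P.p) (hsq : Squarefree M) (h2M : 2 ∣ M) :
    m59sa_Big_stmt (m59sa_frame2 P M hpM) :=
  m59sa_bigW_of_cells (m59sa_cellsW_of_mono h) P M hpM hp hW hirr hsq h2M

end Fermat.Agent.M59
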