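/-
M59 / SINK A, cell [H2] MONO-MAIN for the frame `m59sa_frame2` (helper20; prefix `m59samo_`): twin of
main's `S44/Mono/Main.lean` (helper4) + the frame-typed wrappers `s44mm_mono_of_pair` (MainSlope),
`s44md_inertia_le`, `s44mn_inertia_le_G` (DataGroup, DataGlue), `s44mci_inst_frame` (CIInst), for a
package `P : m59sa_Pkg` (`p` odd) and an EVEN level `M`.  Inputs: helper11's TTwin
(`m59yh2_pair_nf`, `m59yh2_pair_nf_triv`, `m59yndss_ndss`, weights `m59ye_k2`), the DTwin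
`m59mr_unif` (Kummer uniformisation at even level, `p ≠ 2`), main's generic `s44kx_unif_triv`,
`s44b_exists_nf`, `s44mci_inst`, `s44md_*`, `s44mn_*`.

`m59samo_mono : 2 ∣ M → m59sabg_Mono_stmt (m59sa_frame2 P M hpM) (m59ye_k2 …) (s44e_nu …)`;
`m59samo_monoW : m59sa_MonoW_stmt`.
-/
import Mathlib
import Fermat.Agent.M59.SinkA.Big.CellsEasy
import Fermat.Agent.M59.TTwin.MainPair
import Fermat.Agent.M59.TTwin.NodeDictSSDef
import Fermat.Agent.M59.DTwin.S44.RationalUnif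
import Fermat.Agent.S44.Mono.Main

set_option autoImplicit false
set_option linter.unusedSectionVars false
set_option linter.style.haveILetI false
set_option linter.unusedVariables false

noncomputable section

namespace Fermat.Agent.M59

open Fermat.Agent.S44

open Polynomial ModularCurve AlgebraicCurve IntermediateField IsLocalRing
open Fermat.Agent.JT3 Fermat.Agent.SS Fermat.Agent.S35 Fermat.Agent.S24

local notation "Qb" => AlgebraicClosure ℚ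

section Frame

variable {P : m59sa_Pkg} {M : ℕ} [NeZero M] [NeZero (M * P.p)] (Fr : m59sa_Frame P M)
  {Sg : Type} (k : Sg → ZMod P.p) (ν : JZero (M * P.p) → Sg → ZMod P.p)

/-- **[H2] MONO-MAIN from its pair form.** -/
theorem m59samo_mono_of_pair
    (hpair : ∀ (X V : JZero (M * P.p)) (a : s44_G → ℕ) (β : s44_Qb),
      P.p • X = 0 → P.p • V = 0 →
      Fr.as X = 0 → Fr.bs X = 0 → Fr.as V = 0 → Fr.bs V = 0 →
      Fr.ChiEigen X → (∀ σ ∈ Fr.Γ, σ • V = V + a σ • X) →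
      β ≠ 0 → β ∈ Fr.A → β⁻¹ ∈ Fr.A → (∀ σ ∈ Fr.Γ, σ β = Fr.ζ ^ a σ * β) →
      Fr.Split X → ¬ Fr.D1inf V → ∀ i j : Sg, k i * ν V i = k j * ν V j) :
    m59sabg_Mono_stmt Fr k ν := by
  intro X V a β h1 h2 h3 h4 h5 h6 h7 h8 h9 h10 h11 h12 h13 h14
  by_cases hne : Nonempty Sg
  · obtain ⟨i₀⟩ := hne
    exact ⟨k i₀ * ν V i₀, fun i =>
      hpair X V a β h1 h2 h3 h4 h5 h6 h7 h8 h9 h10 h11 h12 h13 h14 i i₀⟩
  · exact ⟨0, fun i => absurd ⟨i⟩ hne⟩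

/-- **`Γ ≤ H`** from the binders of `m59sabg_Mono_stmt`. -/
theorem m59samo_inertia_le [Fact P.p.Prime] (hζ : IsPrimitiveRoot Fr.ζ P.p)
    {X V : JZero (M * P.p)}
    (hX : P.p • X = 0) {a : s44_G → ℕ} {β : s44_Qb} (hchi : Fr.ChiEigen X)
    (hext : ∀ σ ∈ Fr.Γ, σ • V = V + a σ • X) (hβ : ∀ σ ∈ Fr.Γ, σ β = Fr.ζ ^ a σ * β) :
    Fr.Γ ≤ s44md_H hζ β hX V := by
  intro σ hσ
  have h1 : (σ Fr.ζ) ^ P.p = 1 := by rw [← map_pow, hζ.pow_eq_one, map_one]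
  have : NeZero P.p := ⟨P.hp0⟩
  obtain ⟨i, -, hi⟩ := hζ.eq_pow_of_pow_eq_one h1
  exact s44md_mem_H_of_nat hζ β hX V hi.symm (hchi σ hσ i hi.symm) (hext σ hσ) (hβ σ hσ)

/-- **`Γ|L' ≤ G`** from the binders of `m59sabg_Mono_stmt`. -/
theorem m59samo_inertia_le_G [Fact P.p.Prime] (hζ : IsPrimitiveRoot Fr.ζ P.p)
    {X V : JZero (M * P.p)} (hX : P.p • X = 0) {a : s44_G → ℕ} {β : s44_Qb}
    (hchi : Fr.ChiEigen X) (hext : ∀ σ ∈ Fr.Γ, σ • V = V + a σ • X)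
    (hβ : ∀ σ ∈ Fr.Γ, σ β = Fr.ζ ^ a σ * β) (L' : IntermediateField ℚ Qb) [Normal ℚ L'] :
    s44mn_G Fr.Γ L' ≤ s44mn_G (s44md_H hζ β hX V) L' :=
  s44mn_G_mono (m59samo_inertia_le Fr hζ hX hchi hext hβ) L'

end Frame

set_option synthInstance.maxHeartbeats 400000 in
set_option maxHeartbeats 2000000 in
/-- **[H2-CI-INST], frame level** (twin of `s44mci_inst_frame`). -/
theorem m59samo_inst_frame (P : m59sa_Pkg) (M : ℕ) [NeZero M] [NeZero (M * P.p)]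
    (hpM : ¬ P.p ∣ M) (hp2 : ¬ 2 ∣ P.p) {X : JZero (M * P.p)}
    (hsplit : (m59sa_frame2 P M hpM).Split X)
    {fX : modularFunctionFieldBar (M * P.p)} (hfX : s44f_Rep (M * P.p) P.p X fX) :
    ∃ T : Finset Qb, ∀ L1 : IntermediateField ℚ Qb, FiniteDimensional ℚ L1 →
      (↑T : Set Qb) ⊆ L1 →
      ∀ f1 : lg_F ↥L1 (M * P.p), ssm_al_iotaF ↥L1 (M * P.p) f1 = fX →
        s44td_phi ↥L1 (M * P.p) f1 ≠ 0 ∧
        (∀ v : Place ↥L1 (lg_E ↥L1 (M * P.p)),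
          (P.p : ℤ) ∣ v.ord (s44td_phi ↥L1 (M * P.p) f1)) ∧
        (∀ v : Place ↥L1 (lg_E ↥L1 (M * P.p)), v.ord (s44td_phi ↥L1 (M * P.p) f1) ≠ 0 →
          ss_RatPlace v) ∧
        ∀ (π : ↥((s44f_A P.p P.pp).comap (algebraMap ↥L1 Qb))) (_hπ : Irreducible π)
          (σ0 : ↥((s44f_A P.p P.pp).comap (algebraMap ↥L1 Qb)) ≃+*
            ↥((s44f_A P.p P.pp).comap (algebraMap ↥L1 Qb))) (e k : ℕ)
          (ζ : ↥((s44f_A P.p P.pp).comap (algebraMap ↥L1 Qb)))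
          (_D : s44t_PData π σ0 P.p e k ζ),
          s44t_GlobForm π (lg_lamE (L := ↥L1) (M * P.p)) P.p (P.p * e + 1)
            (s44td_phi ↥L1 (M * P.p) f1) := by
  have hp0 : P.p ≠ 0 := P.pp.ne_zero
  have hc : ((P.p : Qb)) ^ 2 ≠ 0 := pow_ne_zero _ (by exact_mod_cast hp0)
  obtain ⟨hd1, hd2⟩ := hsplit _ hc
  have h1 := s44b_depth2_any_rep (M * P.p) (s44f_A P.p P.pp) hp0 (AlgHom.id _ _) hd1 hfX
  have h2 := s44b_depth2_any_rep (M * P.p) (s44f_A P.p P.pp) hp0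
    (ssm_al_Wbar M P.p P.pp hpM) hd2 hfX
  have hord : ∀ v : Place Qb (modularFunctionFieldBar (M * P.p)), (P.p : ℤ) ∣ v.ord fX := by
    obtain ⟨-, D, -, hD⟩ := hfX
    exact fun v => ⟨_, (hD v).symm⟩
  exact s44mci_inst M P.p P.pp hp2 hpM (s44f_A P.p P.pp) (s44f_A_liesOver P.p P.pp) fX hfX.1
    hord h1 h2

section Main

set_option synthInstance.maxHeartbeats 400000

variable (P : m59sa_Pkg) (M : ℕ) [NeZero M] [NeZero (M * P.p)] (hpM : ¬ P.p ∣ M)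

attribute [local instance] s44kq_lsAction

/-- `p` is odd. -/
theorem m59samo_two_not_dvd : ¬ 2 ∣ P.p := fun h =>
  P.hp2 ((Nat.prime_dvd_prime_iff_eq Nat.prime_two P.pp).1 h).symm

set_option maxHeartbeats 3200000 in
/-- **the pairwise form of [H2] MONO-MAIN** from (ND-SS). -/
theorem m59samo_pairs (h2M : 2 ∣ M)
    (hND : ∀ Q : Place (s44e_kA (s44f_A P.p P.pp)) (s44e_FF (s44f_A P.p P.pp) M),
      s44e_IsSS (s44f_A P.p P.pp) M P.p P.pp hpM Q →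
      haveI : Fact P.p.Prime := ⟨P.pp⟩
      m59yh2_NDSS (s44f_A P.p P.pp) (s44f_A_liesOver P.p P.pp) M hpM (m59samo_two_not_dvd P) Q)
    (X V : JZero (M * P.p)) (a : s44_G → ℕ) (β : s44_Qb)
    (hX : P.p • X = 0) (hV : P.p • V = 0)
    (hchi : (m59sa_frame2 P M hpM).ChiEigen X)
    (hext : ∀ σ ∈ (m59sa_frame2 P M hpM).Γ, σ • V = V + a σ • X)
    (hβ0 : β ≠ 0) (hβA : β ∈ (m59sa_frame2 P M hpM).A) (hβiA : β⁻¹ ∈ (m59sa_frame2 P M hpM).A)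
    (hβ : ∀ σ ∈ (m59sa_frame2 P M hpM).Γ, σ β = (m59sa_frame2 P M hpM).ζ ^ a σ * β)
    (hsplit : (m59sa_frame2 P M hpM).Split X)
    (i i' : s44e_Sg (s44f_A P.p P.pp) M P.p P.pp hpM) :
    m59ye_k2 (s44f_A P.p P.pp) M P.p P.pp hpM i * s44e_nu (s44f_A P.p P.pp) M P.p P.pp hpM V i =
      m59ye_k2 (s44f_A P.p P.pp) M P.p P.pp hpM i' *
        s44e_nu (s44f_A P.p P.pp) M P.p P.pp hpM V i' := by
  classical
  haveI : Fact P.p.Prime := ⟨P.pp⟩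
  have hA := s44f_A_liesOver P.p P.pp
  have hpn2 := P.hp2
  have hN2 : 2 ∣ M * P.p := Dvd.dvd.mul_right h2M _
  have hp2 := m59samo_two_not_dvd P
  have hζ : IsPrimitiveRoot (m59sa_frame2 P M hpM).ζ P.p := m59sa_frame2_zeta_spec P M hpM
  obtain ⟨T₀, hT₀⟩ := hND i.1 i.2
  obtain ⟨T₀', hT₀'⟩ := hND i'.1 i'.2
  haveI : NeZero ((M : ℕ) : Qb) := ⟨by exact_mod_cast (NeZero.ne M)⟩
  obtain ⟨ζM, hζM⟩ := HasEnoughRootsOfUnity.exists_primitiveRoot Qb M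
  by_cases hX0 : X = 0
  · -- the trivial Kummer cover
    obtain ⟨T₂, fV, cbar, gbar, Φbar, hRV, hall⟩ :=
      s44kx_unif_triv (M * P.p) hζ β hX V hβ0 hV hX0
    obtain ⟨L', hfd, hn, hTL', -⟩ := s44b_exists_nf (M * P.p) ∅ (T₂ ∪ T₀ ∪ T₀' ∪ {ζM})
    have hTL'' : ∀ x ∈ (T₂ ∪ T₀ ∪ T₀' ∪ {ζM} : Finset Qb), x ∈ L' :=
      fun x hx => hTL' (Finset.mem_coe.2 hx)
    have s1 : (↑T₂ : Set Qb) ⊆ L' := fun x hx => hTL'' x (by
      simp only [Finset.mem_union]; exact Or.inl (Or.inl (Or.inl (Finset.mem_coe.1 hx))))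
    have s2 : (↑T₀ : Set Qb) ⊆ L' := fun x hx => hTL'' x (by
      simp only [Finset.mem_union]; exact Or.inl (Or.inl (Or.inr (Finset.mem_coe.1 hx))))
    have s3 : (↑T₀' : Set Qb) ⊆ L' := fun x hx => hTL'' x (by
      simp only [Finset.mem_union]; exact Or.inl (Or.inr (Finset.mem_coe.1 hx)))
    have s4 : ζM ∈ L' := hTL'' ζM (Finset.mem_union_right _ (Finset.mem_singleton_self ζM))
    haveI := hfd
    haveI := hn
    haveI : NumberField ↥L' := { to_charZero := inferInstance, to_finiteDimensional := hfd }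
    haveI hdvr : IsDiscreteValuationRing ↥((s44f_A P.p P.pp).comap (algebraMap ↥L' Qb)) :=
      dsc_isDVR_comap_numberField (s44f_A P.p P.pp) P.p hA P.pp.ne_zero ↥L'
    haveI : CharP (IsLocalRing.ResidueField ↥((s44f_A P.p P.pp).comap (algebraMap ↥L' Qb))) P.p :=
      ss_nfl_charP_residue (lg_natCast_mem_maximalIdeal (s44f_A P.p P.pp) hA ↥L')
    obtain ⟨π, hπ⟩ := IsDiscreteValuationRing.exists_irreducible
      ↥((s44f_A P.p P.pp).comap (algebraMap ↥L' Qb))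
    have hζM' : IsPrimitiveRoot (⟨ζM, s4⟩ : ↥L') M :=
      (IsPrimitiveRoot.map_iff_of_injective (f := algebraMap ↥L' Qb)
        (FaithfulSMul.algebraMap_injective ↥L' Qb)).1 hζM
    obtain ⟨fv1, c, g, Φ, hfv1, hc0, hg0, hΦ, hσΦ, -, -, -, hRΦ⟩ := hall L' hfd hn s1
    have hle := m59samo_inertia_le_G (m59sa_frame2 P M hpM) hζ hX hchi hext hβ L'
    exact m59yh2_pair_nf_triv (s44f_A P.p P.pp) hA M hpM hp2 hpn2 h2M L' hπ ⟨ζM, s4⟩ hζM' hV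
      (by rw [hfv1]; exact hRV) hc0 hg0 hΦ (fun σ => hσΦ ⟨σ.1, hle σ.2⟩) hRΦ i i'
      (hT₀ L' s2 hπ) (hT₀' L' s3 hπ)
  · -- the Kummer cover of `X ≠ 0`
    obtain ⟨T₂, fX, fV, ybar, cbar, gbar, Φbar, hbar, hRX, hRV, hlc, hyb, hall⟩ :=
      m59mr_unif (M * P.p) hN2 hpn2 hζ β hX V hβ0 hV hX0
    obtain ⟨TX, hTX⟩ := m59samo_inst_frame P M hpM hp2 hsplit hRX
    obtain ⟨L', hfd, hn, hTL', -⟩ :=
      s44b_exists_nf (M * P.p) ∅ (T₂ ∪ TX ∪ T₀ ∪ T₀' ∪ {ζM})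
    have hTL'' : ∀ x ∈ (T₂ ∪ TX ∪ T₀ ∪ T₀' ∪ {ζM} : Finset Qb), x ∈ L' :=
      fun x hx => hTL' (Finset.mem_coe.2 hx)
    have s1 : (↑T₂ : Set Qb) ⊆ L' := fun x hx => hTL'' x (by
      simp only [Finset.mem_union]
      exact Or.inl (Or.inl (Or.inl (Or.inl (Finset.mem_coe.1 hx)))))
    have s1' : (↑TX : Set Qb) ⊆ L' := fun x hx => hTL'' x (by
      simp only [Finset.mem_union]
      exact Or.inl (Or.inl (Or.inl (Or.inr (Finset.mem_coe.1 hx)))))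
    have s2 : (↑T₀ : Set Qb) ⊆ L' := fun x hx => hTL'' x (by
      simp only [Finset.mem_union]; exact Or.inl (Or.inl (Or.inr (Finset.mem_coe.1 hx))))
    have s3 : (↑T₀' : Set Qb) ⊆ L' := fun x hx => hTL'' x (by
      simp only [Finset.mem_union]; exact Or.inl (Or.inr (Finset.mem_coe.1 hx)))
    have s4 : ζM ∈ L' := hTL'' ζM (Finset.mem_union_right _ (Finset.mem_singleton_self ζM))
    haveI := hfd
    haveI := hn
    haveI : NumberField ↥L' := { to_charZero := inferInstance, to_finiteDimensional := hfd }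
    haveI hdvr : IsDiscreteValuationRing ↥((s44f_A P.p P.pp).comap (algebraMap ↥L' Qb)) :=
      dsc_isDVR_comap_numberField (s44f_A P.p P.pp) P.p hA P.pp.ne_zero ↥L'
    haveI : CharP (IsLocalRing.ResidueField ↥((s44f_A P.p P.pp).comap (algebraMap ↥L' Qb))) P.p :=
      ss_nfl_charP_residue (lg_natCast_mem_maximalIdeal (s44f_A P.p P.pp) hA ↥L')
    obtain ⟨π, hπ⟩ := IsDiscreteValuationRing.exists_irreducible
      ↥((s44f_A P.p P.pp).comap (algebraMap ↥L' Qb))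
    have hζM' : IsPrimitiveRoot (⟨ζM, s4⟩ : ↥L') M :=
      (IsPrimitiveRoot.map_iff_of_injective (f := algebraMap ↥L' Qb)
        (FaithfulSMul.algebraMap_injective ↥L' Qb)).1 hζM
    obtain ⟨ζ1, β1, fx1, fv1, y, c, Lb, τ, g, Φ, h, hζ1, hβ1, hfx1, hfv1, hy, Pk, -, -, -, -, -,
      hR⟩ := hall L' hfd hn s1
    obtain ⟨-, -, hratX, hglobX⟩ := hTX L' hfd s1' fx1 hfx1
    have hle := m59samo_inertia_le_G (m59sa_frame2 P M hpM) hζ hX hchi hext hβ L'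
    have hζ1' : IsPrimitiveRoot ζ1 P.p :=
      (IsPrimitiveRoot.map_iff_of_injective (f := algebraMap ↥L' Qb)
        (FaithfulSMul.algebraMap_injective ↥L' Qb)).1 (by rw [hζ1]; exact hζ)
    have hβ10 : β1 ≠ 0 := by
      rintro rfl
      rw [map_zero] at hβ1
      exact hβ0 hβ1.symm
    exact m59yh2_pair_nf (s44f_A P.p P.pp) hA M hpM hp2 hpn2 h2M L' hπ ⟨ζM, s4⟩ hζM' hV hX0 hζ1'
      (by rw [hβ1]; exact hβA) (by rw [hβ1]; exact hβiA) hβ10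
      (by rw [hfx1]; exact hRX) (by rw [hfv1]; exact hRV) hy (s44h2_pack_sub hle Pk) hratX
      (fun σ0 e k ζ' D => hglobX π hπ σ0 e k ζ' D) hR i i' (hT₀ L' s2 hπ) (hT₀' L' s3 hπ)

/-- **[H2] MONO-MAIN from (ND-SS).** -/
theorem m59samo_mono_of_nd (h2M : 2 ∣ M)
    (hND : ∀ Q : Place (s44e_kA (s44f_A P.p P.pp)) (s44e_FF (s44f_A P.p P.pp) M),
      s44e_IsSS (s44f_A P.p P.pp) M P.p P.pp hpM Q →
      haveI : Fact P.p.Prime := ⟨P.pp⟩
      m59yh2_NDSS (s44f_A P.p P.pp) (s44f_A_liesOver P.p P.pp) M hpM (m59samo_two_not_dvd P) Q) :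
    m59sabg_Mono_stmt (m59sa_frame2 P M hpM) (m59ye_k2 (s44f_A P.p P.pp) M P.p P.pp hpM)
      (s44e_nu (s44f_A P.p P.pp) M P.p P.pp hpM) :=
  m59samo_mono_of_pair (m59sa_frame2 P M hpM) _ _
    (fun X V a β hX hV _ _ _ _ hchi hext hβ0 hβA hβiA hβ hsplit _ i j =>
      m59samo_pairs P M hpM h2M hND X V a β hX hV hchi hext hβ0 hβA hβiA hβ hsplit i j)

/-- **[H2] MONO-MAIN.** -/
theorem m59samo_mono (h2M : 2 ∣ M) :
    m59sabg_Mono_stmt (m59sa_frame2 P M hpM) (m59ye_k2 (s44f_A P.p P.pp) M P.p P.pp hpM)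
      (s44e_nu (s44f_A P.p P.pp) M P.p P.pp hpM) :=
  haveI : Fact P.p.Prime := ⟨P.pp⟩
  m59samo_mono_of_nd P M hpM h2M (fun Q hQ =>
    m59yndss_ndss (s44f_A P.p P.pp) (s44f_A_liesOver P.p P.pp) M hpM (m59samo_two_not_dvd P) h2M Q hQ)

/-- **[MONO-W]**: closed. -/
theorem m59samo_monoW : m59sa_MonoW_stmt :=
  fun P M _ _ hpM h2M => m59samo_mono P M hpM h2M

end Main

end Fermat.Agent.M59
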