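import Fermat.Agent.M59.SinkA.Big.Seams
import Fermat.Agent.M59.DTwin.S44.Ord
import Fermat.Agent.S44.Big.InstOldK
import Fermat.Agent.S44.HeckeRes.AsmRes

/-!
# M59 / SINK A, the field `oldK` of `m59sabg_Cells` for `m59sa_frame2` (helper20; prefix `m59sak`)

Twins, for a package `P : m59sa_Pkg` (integral model `P.W`, odd prime `P.p`), of main's
`s44c_level_of_dens` (Old0/Dens), `s44k2_level_of_delta` (OldK/LevelM), `s44k2g_Delta`, `s44k2g_oldK`
(OldK/Glue), `s44k2d_delta`, `s44k2d_Delta_of` (OldK/DeltaInst), `s44bg_inst_oldK` (Big/InstOldK).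
All the geometry (`s44k2_red_surj`, `s44k2_red_heckep`, `s44kd_dens_main`, `s44k2d_cls_*`,
`s44e_fbar_*`, `s44rd_hmem/hsurj`, `s44ha_fbar_hecke`) is generic on main; (E2-ord) is the
DTwin `m59so_ord` (`p` odd, `2 ∣ M`).

`m59sak_oldK_frame2 : 2 ∣ M → m59sabg_OldK_stmt (m59sa_frame2 P M hpM) (s44e_nu …)`.
-/

set_option autoImplicit false
set_option linter.unusedSectionVars false
set_option linter.style.haveILetI false
set_option linter.unusedVariables false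
set_option synthInstance.maxHeartbeats 400000
set_option maxHeartbeats 1000000

noncomputable section

open CongruenceSubgroup ModularCurve AlgebraicCurve
open WeierstrassCurve
open Fermat.Agent.JT3 Fermat.Agent.S24 Fermat.Agent.S35 Fermat.Agent.MZ Fermat.Agent.S44

namespace Fermat.Agent.M59

/-- **(CHAR-N)**: the Nakayama glue -/
theorem m59sak_level_of_dens (P : m59sa_Pkg) (M : ℕ) [NeZero M] {V : Type*} [AddCommGroup V]
    (red : JZero M →+ V) (t : Nat.Primes → V →+ V)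
    (hred : ∀ ℓ : Nat.Primes, P.W.IsGoodPrimeFor ℓ → ¬ (ℓ : ℕ) ∣ M → (ℓ : ℕ) ≠ P.p →
      ∀ z : JZero M, red (heckeOperatorBar M ℓ z) = t ℓ (red z))
    (hdens : ∀ (Qe : JZero M →+ JZero M) (Qb : V →+ V),
      (∀ (σ : s44_G) (x : JZero M), Qe (σ • x) = σ • Qe x) →
      (∀ x : JZero M, red (Qe x) = Qb (red x)) →
      (∀ x : JZero M, (∃ n : ℕ, P.p ^ n • x = 0) → Qe x = 0) →
      ∀ y : JZero M, P.p • red y = 0 → Qb (red y) = 0)
    (δ : V) (hδ0 : δ ≠ 0) (hpδ : P.p • δ = 0)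
    (hδ : ∀ ℓ : Nat.Primes, P.W.IsGoodPrimeFor ℓ → ¬ (ℓ : ℕ) ∣ M → (ℓ : ℕ) ≠ P.p →
      t ℓ δ = (P.W.apOfModel ℓ) • δ)
    (y : JZero M) (hy : red y = δ) :
    P.ModularRepOfLevel M := by
  classical
  haveI : Fact P.p.Prime := ⟨P.pp⟩
  set p := P.p with hp
  -- the index set of good primes
  let Λ : Type := {ℓ : Nat.Primes // P.W.IsGoodPrimeFor ℓ ∧ ¬ (ℓ : ℕ) ∣ M ∧ (ℓ : ℕ) ≠ p}
  let ℓΛ : Λ → Nat.Primes := fun i => i.1
  have hℓM : ∀ i : Λ, ¬ ((ℓΛ i : ℕ) ∣ M) := fun i => i.2.2.1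
  let a : Λ → ℤ := fun i => P.W.apOfModel (i.1 : ℕ)
  haveI : Module.Finite ℤ (gh_H M) :=
    Module.Finite.equiv (ghf_basisEquiv M).symm.toIntLinearEquiv
  rcases s44c_nak (fun i : Λ => t2f_TH M (ℓΛ i : ℕ)) (s44c_TH_commute M ℓΛ hℓM) a P.pp with
    ⟨v, hv0, hv⟩ | ⟨r, hrH, c, hrc⟩
  · -- an eigen-functional: Deligne–Serre
    obtain ⟨g, 𝔪', hg, hmax, hpm, hcong⟩ := s44c_lift P.pp
      {ℓ : ℕ | P.W.IsGoodPrimeFor ℓ ∧ ℓ ≠ p} (fun ℓ => P.W.apOfModel ℓ) v hv0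
      (fun ℓ hℓ hℓM' hG => hv ⟨⟨ℓ, hℓ⟩, hG.1, hℓM', hG.2⟩)
    exact ⟨g, 𝔪', hg, hmax, hpm, fun ℓ hℓ hgood hℓM' hℓp => hcong ℓ hℓ hℓM' ⟨hgood, hℓp⟩⟩
  · -- Nakayama: contradiction with (DENS-p)
    exfalso
    let evJ : FreeAlgebra ℤ Λ →ₐ[ℤ] Module.End ℤ (JZero M) :=
      FreeAlgebra.lift ℤ (fun i => heckeOperatorBar M (ℓΛ i))
    let evV : FreeAlgebra ℤ Λ →ₐ[ℤ] Module.End ℤ V :=
      FreeAlgebra.lift ℤ (fun i => (t (ℓΛ i)).toIntLinearMap)
    -- (a) Galois equivariance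
    have ha : ∀ (x : FreeAlgebra ℤ Λ) (σ : s44_G) (z : JZero M), evJ x (σ • z) = σ • evJ x z := by
      intro x
      induction x using FreeAlgebra.induction with
      | grade0 k =>
        intro σ z
        rw [AlgHom.commutes, Module.algebraMap_end_apply, Module.algebraMap_end_apply]
        exact (map_zsmul (DistribSMul.toAddMonoidHom (JZero M) σ) k z).symm
      | grade1 i =>
        intro σ z
        show FreeAlgebra.lift ℤ (fun i => heckeOperatorBar M (ℓΛ i)) (FreeAlgebra.ι ℤ i) (σ • z) =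
          σ • FreeAlgebra.lift ℤ (fun i => heckeOperatorBar M (ℓΛ i)) (FreeAlgebra.ι ℤ i) z
        rw [FreeAlgebra.lift_ι_apply]
        exact (egh_comm M (ℓΛ i) σ z).symm
      | mul x₁ x₂ h₁ h₂ =>
        intro σ z
        rw [map_mul, Module.End.mul_apply, Module.End.mul_apply, h₂, h₁]
      | add x₁ x₂ h₁ h₂ =>
        intro σ z
        rw [map_add, LinearMap.add_apply, LinearMap.add_apply, h₁, h₂, smul_add]
    -- (b) compatibility with `red`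
    have hb : ∀ (x : FreeAlgebra ℤ Λ) (z : JZero M), red (evJ x z) = evV x (red z) := by
      intro x
      induction x using FreeAlgebra.induction with
      | grade0 k =>
        intro z
        rw [AlgHom.commutes, AlgHom.commutes, Module.algebraMap_end_apply,
          Module.algebraMap_end_apply, map_zsmul]
      | grade1 i =>
        intro z
        show red (FreeAlgebra.lift ℤ (fun i => heckeOperatorBar M (ℓΛ i)) (FreeAlgebra.ι ℤ i) z) =
          FreeAlgebra.lift ℤ (fun i => (t (ℓΛ i)).toIntLinearMap) (FreeAlgebra.ι ℤ i) (red z)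
        rw [FreeAlgebra.lift_ι_apply, FreeAlgebra.lift_ι_apply]
        exact hred i.1 i.2.1 i.2.2.1 i.2.2.2 z
      | mul x₁ x₂ h₁ h₂ =>
        intro z
        rw [map_mul, map_mul, Module.End.mul_apply, Module.End.mul_apply, h₁, h₂]
      | add x₁ x₂ h₁ h₂ =>
        intro z
        rw [map_add, map_add, LinearMap.add_apply, LinearMap.add_apply, map_add, h₁, h₂]
    -- eigenvalue of `evV x` on `δ`
    have hev : ∀ x : FreeAlgebra ℤ Λ, evV x δ = (FreeAlgebra.lift ℤ a x) • δ := by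
      intro x
      induction x using FreeAlgebra.induction with
      | grade0 k =>
        rw [AlgHom.commutes, AlgHom.commutes, Module.algebraMap_end_apply]
        rfl
      | grade1 i =>
        show FreeAlgebra.lift ℤ (fun i => (t (ℓΛ i)).toIntLinearMap) (FreeAlgebra.ι ℤ i) δ =
          (FreeAlgebra.lift ℤ a (FreeAlgebra.ι ℤ i)) • δ
        rw [FreeAlgebra.lift_ι_apply, FreeAlgebra.lift_ι_apply]
        exact hδ i.1 i.2.1 i.2.2.1 i.2.2.2
      | mul x₁ x₂ h₁ h₂ =>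
        rw [map_mul, map_mul, Module.End.mul_apply, h₂, map_zsmul, h₁, smul_smul, mul_comm]
      | add x₁ x₂ h₁ h₂ =>
        rw [map_add, map_add, LinearMap.add_apply, h₁, h₂, add_smul]
    -- (c) `evJ r` kills the `p`-power torsion
    have hc : ∀ x : JZero M, (∃ n : ℕ, p ^ n • x = 0) → evJ r x = 0 := by
      rintro x ⟨n, hn⟩
      exact s44c_free_kills_tors M p ℓΛ hℓM r hrH x n hn
    have h0 := hdens (evJ r).toAddMonoidHom (evV r).toAddMonoidHom (fun σ x => ha r σ x)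
      (fun x => hb r x) hc y (by rw [hy]; exact hpδ)
    rw [hy] at h0
    have h1 : evV r δ = 0 := h0
    rw [hev r, hrc, add_smul, one_smul, mul_comm, mul_smul, natCast_zsmul, hpδ, smul_zero,
      add_zero] at h1
    exact hδ0 h1

local notation "Qb" => AlgebraicClosure ℚ

/-- **[C2], the level-`M` half**: a nonzero `T̃_ℓ`-eigenclass of `Pic⁰(F̃_M / kA)[p]` with the
eigenvalues `a_ℓ(W)` gives residual modularity of level `M`. -/
theorem m59sak_level_of_delta (P : m59sa_Pkg) (M : ℕ) [NeZero M] (hpM : ¬ P.p ∣ M)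
    (A : ValuationSubring Qb) (hA : A.LiesOverPrime P.p)
    (δ : JZeroC (IsLocalRing.ResidueField A) M) (hδ0 : δ ≠ 0) (hpδ : P.p • δ = 0)
    (hδ : ∀ ℓ : Nat.Primes, P.W.IsGoodPrimeFor ℓ → ¬ (ℓ : ℕ) ∣ M → (ℓ : ℕ) ≠ P.p →
      s44k2_TCp (IsLocalRing.ResidueField A) M ℓ δ = (P.W.apOfModel ℓ) • δ) :
    P.ModularRepOfLevel M := by
  obtain ⟨y, hy⟩ := s44k2_red_surj M P.p P.pp hpM A hA δ
  exact m59sak_level_of_dens P M (reductionModL A M)
    (fun ℓ => s44k2_TCp (IsLocalRing.ResidueField A) M ℓ)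
    (fun ℓ _ hℓM hℓp z => s44k2_red_heckep M P.p P.pp hpM A hA ℓ hℓM hℓp z)
    (s44kd_dens_main M P.p P.pp hpM A hA) δ hδ0 hpδ hδ y hy

section Glue

variable {P : m59sa_Pkg} {M : ℕ} [NeZero M] [NeZero (M * P.p)] (Fr : m59sa_Frame P M)
  {Sg : Type} (ν : JZero (M * P.p) → Sg → ZMod P.p)
  (δ : JZero (M * P.p) → JZeroC (IsLocalRing.ResidueField Fr.A) M)

/-- **the interface [E2-δ] + [E3b] → [C2]** -/
structure m59sakg_Delta : Prop where
  ne : ∀ z : JZero (M * P.p), P.p • z = 0 → ¬ Fr.D1inf z → ν z = 0 → δ z ≠ 0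
  tors : ∀ z : JZero (M * P.p), P.p • z = 0 → ν z = 0 → P.p • δ z = 0
  add : ∀ z z' : JZero (M * P.p), P.p • z = 0 → P.p • z' = 0 → ν z = 0 → ν z' = 0 →
    δ (z + z') = δ z + δ z'
  hecke : ∀ ℓ : Nat.Primes, ¬ (ℓ : ℕ) ∣ M * P.p → ∀ z : JZero (M * P.p), P.p • z = 0 →
    ν z = 0 → ν (heckeOperatorBar (M * P.p) ℓ z) = 0 →
    δ (heckeOperatorBar (M * P.p) ℓ z) = s44k2_TCp (IsLocalRing.ResidueField Fr.A) M ℓ (δ z)

variable {Fr ν δ}

section Nu

variable (hν : ∀ z z' : JZero (M * P.p), P.p • z = 0 → P.p • z' = 0 → ν (z + z') = ν z + ν z')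

include hν

theorem m59sakg_nu_zero : ν 0 = 0 := by
  have h := hν 0 0 (smul_zero _) (smul_zero _)
  rw [add_zero] at h
  exact left_eq_add.1 h

theorem m59sakg_nu_nsmul (z : JZero (M * P.p)) (hz : P.p • z = 0) (n : ℕ) :
    ν (n • z) = n • ν z := by
  induction n with
  | zero => rw [zero_nsmul, zero_nsmul]; exact m59sakg_nu_zero hν
  | succ n ih =>
    have hnz : P.p • (n • z) = 0 := by rw [smul_comm, hz, smul_zero]
    rw [succ_nsmul, succ_nsmul, hν _ _ hnz hz, ih]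

theorem m59sakg_nu_neg (z : JZero (M * P.p)) (hz : P.p • z = 0) : ν (-z) = -ν z := by
  have hnz : P.p • (-z) = 0 := by rw [neg_nsmul, hz, _root_.neg_zero]
  have h := hν z (-z) hz hnz
  rw [add_neg_cancel, m59sakg_nu_zero hν] at h
  exact (neg_eq_of_add_eq_zero_right h.symm).symm

theorem m59sakg_nu_zsmul_eq_zero (z : JZero (M * P.p)) (hz : P.p • z = 0) (h0 : ν z = 0)
    (n : ℤ) : ν (n • z) = 0 := by
  obtain ⟨m, rfl | rfl⟩ := n.eq_nat_or_neg
  · rw [natCast_zsmul, m59sakg_nu_nsmul hν z hz, h0, smul_zero]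
  · have hmz : P.p • (m • z) = 0 := by rw [smul_comm, hz, smul_zero]
    rw [neg_smul, natCast_zsmul, m59sakg_nu_neg hν _ hmz, m59sakg_nu_nsmul hν z hz, h0, smul_zero,
      _root_.neg_zero]

end Nu

section Delta

variable (hD : m59sakg_Delta Fr ν δ)
  (hν : ∀ z z' : JZero (M * P.p), P.p • z = 0 → P.p • z' = 0 → ν (z + z') = ν z + ν z')

include hD hν

theorem m59sakg_delta_zero : δ 0 = 0 := by
  have h := hD.add 0 0 (smul_zero _) (smul_zero _) (m59sakg_nu_zero hν) (m59sakg_nu_zero hν)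
  rw [add_zero] at h
  exact left_eq_add.1 h

theorem m59sakg_delta_nsmul (z : JZero (M * P.p)) (hz : P.p • z = 0) (h0 : ν z = 0) (n : ℕ) :
    δ (n • z) = n • δ z := by
  induction n with
  | zero => rw [zero_nsmul, zero_nsmul]; exact m59sakg_delta_zero hD hν
  | succ n ih =>
    have hnz : P.p • (n • z) = 0 := by rw [smul_comm, hz, smul_zero]
    have hn0 : ν (n • z) = 0 := by
      have := m59sakg_nu_zsmul_eq_zero hν z hz h0 (n : ℤ)
      rwa [natCast_zsmul] at this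
    rw [succ_nsmul, succ_nsmul, hD.add _ _ hnz hz hn0 h0, ih]

theorem m59sakg_delta_neg (z : JZero (M * P.p)) (hz : P.p • z = 0) (h0 : ν z = 0) :
    δ (-z) = -δ z := by
  have hnz : P.p • (-z) = 0 := by rw [neg_nsmul, hz, _root_.neg_zero]
  have hn0 : ν (-z) = 0 := by rw [m59sakg_nu_neg hν z hz, h0, _root_.neg_zero]
  have h := hD.add z (-z) hz hnz h0 hn0
  rw [add_neg_cancel, m59sakg_delta_zero hD hν] at h
  exact (neg_eq_of_add_eq_zero_right h.symm).symm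

theorem m59sakg_delta_zsmul (z : JZero (M * P.p)) (hz : P.p • z = 0) (h0 : ν z = 0) (n : ℤ) :
    δ (n • z) = n • δ z := by
  obtain ⟨m, rfl | rfl⟩ := n.eq_nat_or_neg
  · rw [natCast_zsmul, natCast_zsmul, m59sakg_delta_nsmul hD hν z hz h0]
  · have hmz : P.p • (m • z) = 0 := by rw [smul_comm, hz, smul_zero]
    have hm0 : ν (m • z) = 0 := by
      have := m59sakg_nu_zsmul_eq_zero hν z hz h0 (m : ℤ)
      rwa [natCast_zsmul] at this
    rw [neg_smul, neg_smul, natCast_zsmul, natCast_zsmul, m59sakg_delta_neg hD hν _ hmz hm0,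
      m59sakg_delta_nsmul hD hν z hz h0]

end Delta

/-- **[C2], the composite**: the field `oldK` of `m59sabg_Cells` from [E2-δ] + [E3b]. -/
theorem m59sakg_oldK (hpM : ¬ P.p ∣ M) (hA : Fr.A.LiesOverPrime P.p)
    (hD : m59sakg_Delta Fr ν δ)
    (hν : ∀ z z' : JZero (M * P.p), P.p • z = 0 → P.p • z' = 0 → ν (z + z') = ν z + ν z') :
    m59sabg_OldK_stmt Fr ν := by
  intro z hz _ _ heig hD1 hν0
  refine m59sak_level_of_delta P M hpM Fr.A hA (δ z) (hD.ne z hz hD1 hν0)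
    (hD.tors z hz hν0) ?_
  intro ℓ hgood hℓM hℓp
  have hℓN : ¬ (ℓ : ℕ) ∣ M * P.p := by
    intro h
    rcases (Nat.Prime.dvd_mul ℓ.2).mp h with h1 | h1
    · exact hℓM h1
    · exact hℓp ((Nat.prime_dvd_prime_iff_eq ℓ.2 P.pp).mp h1)
  have he := heig ℓ hgood hℓN hℓp
  have hνT : ν (heckeOperatorBar (M * P.p) ℓ z) = 0 := by
    rw [he]
    exact m59sakg_nu_zsmul_eq_zero hν z hz hν0 _
  rw [← hD.hecke ℓ hℓN z hz hν0 hνT, he, m59sakg_delta_zsmul hD hν z hz hν0]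

end Glue

section DeltaInst

variable (P : m59sa_Pkg) (M : ℕ) [NeZero M]

/-- `j̃` is a separating generator of the special fibre function field of level `M`. -/
theorem m59sakd_sepGen (hpM : ¬ P.p ∣ M) :
    rt_IsSepGen (s44e_kA (s44f_A P.p P.pp)) (jcr_j (k := s44e_kA (s44f_A P.p P.pp)) M) := by
  haveI : Fact P.p.Prime := ⟨P.pp⟩
  haveI := jcr_charP (s44f_A P.p P.pp) (s44f_A_liesOver P.p P.pp)
  haveI := jcr_isAlgClosed (s44f_A P.p P.pp)
  exact jcr_isSepGen M hpM (jcr_rho (s44f_A P.p P.pp) (s44f_A_liesOver P.p P.pp))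

/-- the special fibre function field of level `M` has principal divisors. -/
theorem m59sakd_hpd (hpM : ¬ P.p ∣ M) :
    HasPrincipalDivisors (s44e_kA (s44f_A P.p P.pp)) (s44e_FF (s44f_A P.p P.pp) M) := by
  haveI : IsAlgClosed (s44e_kA (s44f_A P.p P.pp)) := jcr_isAlgClosed (s44f_A P.p P.pp)
  exact rt_hasPrincipalDivisors (m59sakd_sepGen P M hpM)

/-- on the special fibre the functions without zeros and poles are constant. -/
theorem m59sakd_hconst (hpM : ¬ P.p ∣ M) (u : s44e_FF (s44f_A P.p P.pp) M) (hu : u ≠ 0)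
    (h : ∀ Q : Place (s44e_kA (s44f_A P.p P.pp)) (s44e_FF (s44f_A P.p P.pp) M), Q.ord u = 0) :
    ∃ c : s44e_kA (s44f_A P.p P.pp),
      u = algebraMap (s44e_kA (s44f_A P.p P.pp)) (s44e_FF (s44f_A P.p P.pp) M) c := by
  haveI : IsAlgClosed (s44e_kA (s44f_A P.p P.pp)) := jcr_isAlgClosed (s44f_A P.p P.pp)
  exact rt_const_of_forall_mem (m59sakd_sepGen P M hpM) u
    (fun v => (hw_mem_iff_ord_nonneg v hu).mpr (h v).ge)

variable [NeZero (M * P.p)]

/-- **the class `δ z = [(1/p) div f̄_z]`** of `Pic⁰` of the special fibre of level `M`. -/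
def m59sakd_delta (hpM : ¬ P.p ∣ M) (z : JZero (M * P.p)) :
    JZeroC (s44e_kA (s44f_A P.p P.pp)) M :=
  haveI := m59sakd_hpd P M hpM
  s44k2d_cls (K := s44e_kA (s44f_A P.p P.pp)) P.p (s44e_fbar (s44f_A P.p P.pp) M P.p z)

theorem m59sakd_delta_def (hpM : ¬ P.p ∣ M) (z : JZero (M * P.p)) :
    m59sakd_delta P M hpM z =
      (haveI := m59sakd_hpd P M hpM
       s44k2d_cls (K := s44e_kA (s44f_A P.p P.pp)) P.p (s44e_fbar (s44f_A P.p P.pp) M P.p z)) :=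
  rfl

/-- the chosen reduction is a reduction. -/
theorem m59sakd_fbar_spec {z : JZero (M * P.p)}
    (h : ∃ fb, s44e_Fbar (s44f_A P.p P.pp) M P.p z fb) :
    s44e_Fbar (s44f_A P.p P.pp) M P.p z (s44e_fbar (s44f_A P.p P.pp) M P.p z) := by
  rw [s44e_fbar, dif_pos h]
  exact h.choose_spec

section Main

variable (hpM : ¬ P.p ∣ M)

local notation "A₀" => s44f_A P.p P.pp
local notation "kA" => s44e_kA (s44f_A P.p P.pp)
local notation "FF" => s44e_FF (s44f_A P.p P.pp) M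

/-- **[E2-δ] + [E3b] ⟹ the interface of [C2]**, as pure assembly. -/
theorem m59sakd_Delta_of
    (hE : ∀ z : JZero (M * P.p), P.p • z = 0 → ∃ fb, s44e_Fbar A₀ M P.p z fb)
    (hU : ∀ (z : JZero (M * P.p)) (fb fb' : FF), s44e_Fbar A₀ M P.p z fb →
      s44e_Fbar A₀ M P.p z fb' →
      ∃ (κ : kA) (g : FF), κ ≠ 0 ∧ g ≠ 0 ∧ fb' = algebraMap kA FF κ * fb * g ^ P.p)
    (hAdd : ∀ (z z' : JZero (M * P.p)) (fb fb' : FF), s44e_Fbar A₀ M P.p z fb →
      s44e_Fbar A₀ M P.p z' fb' → s44e_Fbar A₀ M P.p (z + z') (fb * fb'))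
    (hOrd : ∀ (z : JZero (M * P.p)) (fb : FF), P.p • z = 0 → s44e_Fbar A₀ M P.p z fb →
      ∀ Q : Place kA FF, ¬ s44e_IsSS A₀ M P.p P.pp hpM Q → (P.p : ℤ) ∣ Q.ord fb)
    (hHecke : ∀ ℓ : Nat.Primes, ¬ (ℓ : ℕ) ∣ M * P.p → ∀ (z : JZero (M * P.p)) (fb : FF),
      P.p • z = 0 → s44e_Fbar A₀ M P.p z fb →
      s44e_Fbar A₀ M P.p (heckeOperatorBar (M * P.p) ℓ z)
        (haveI : NeZero (ℓ : ℕ) := ⟨ℓ.2.ne_zero⟩
         s35pe_normAlong (mzrh_alC kA M ℓ) (mzrh_beC kA M ℓ fb)))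
    (hNe : ∀ (z : JZero (M * P.p)) (fb : FF), P.p • z = 0 → s44e_Fbar A₀ M P.p z fb →
      (∃ (κ : kA) (g : FF), κ ≠ 0 ∧ g ≠ 0 ∧ fb = algebraMap kA FF κ * g ^ P.p) →
      (m59sa_frame2 P M hpM).D1inf z) :
    m59sakg_Delta (m59sa_frame2 P M hpM) (s44e_nu A₀ M P.p P.pp hpM) (m59sakd_delta P M hpM) := by
  haveI : Fact P.p.Prime := ⟨P.pp⟩
  haveI hcharP := jcr_charP A₀ (s44f_A_liesOver P.p P.pp)
  haveI halg := jcr_isAlgClosed A₀
  haveI hpd := m59sakd_hpd P M hpM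
  have hp0 : P.p ≠ 0 := P.hp0
  -- `f̄_z` is a reduction, and is `p`-divisible when `ν z = 0`
  have hspec : ∀ z : JZero (M * P.p), P.p • z = 0 →
      s44e_Fbar A₀ M P.p z (s44e_fbar A₀ M P.p z) := fun z hz => m59sakd_fbar_spec P M (hE z hz)
  have hpdiv : ∀ z : JZero (M * P.p), P.p • z = 0 → s44e_nu A₀ M P.p P.pp hpM z = 0 →
      s44k2d_PDiv (K := kA) P.p (s44e_fbar A₀ M P.p z) := by
    intro z hz hν0
    refine ⟨(hspec z hz).1, fun Q => ?_⟩
    by_cases hQ : s44e_IsSS A₀ M P.p P.pp hpM Q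
    · have h1 := congrFun hν0 ⟨Q, hQ⟩
      have h2 : ((Q.ord (s44e_fbar A₀ M P.p z) : ℤ) : ZMod P.p) = 0 := h1
      exact (ZMod.intCast_zmod_eq_zero_iff_dvd _ _).mp h2
    · exact hOrd z _ hz (hspec z hz) Q hQ
  refine ⟨?_, ?_, ?_, ?_⟩
  · -- `ne`
    intro z hz hD1 hν0 h0
    rw [m59sakd_delta_def] at h0
    obtain ⟨κ, g, hκ, hg, hfg⟩ := s44k2d_cls_eq_zero hp0 (m59sakd_hconst P M hpM) (hpdiv z hz hν0) h0
    exact hD1 (hNe z _ hz (hspec z hz) ⟨κ, g, hκ, hg, hfg⟩)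
  · -- `tors`
    intro z _ _
    rw [m59sakd_delta_def]
    exact s44k2d_cls_tors P.p _
  · -- `add`
    intro z z' hz hz' hν0 hν0'
    have hzz : P.p • (z + z') = 0 := by rw [nsmul_add, hz, hz', add_zero]
    obtain ⟨κ, g, hκ, hg, hfg⟩ := hU (z + z') _ _
      (hAdd z z' _ _ (hspec z hz) (hspec z' hz')) (hspec (z + z') hzz)
    rw [m59sakd_delta_def, m59sakd_delta_def, m59sakd_delta_def,
      s44k2d_cls_congr hp0 (mul_ne_zero (hspec z hz).1 (hspec z' hz').1) hκ hg hfg,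
      s44k2d_cls_mul hp0 (hpdiv z hz hν0) (hpdiv z' hz' hν0')]
    rfl
  · -- `hecke`
    intro ℓ hℓN z hz hν0 _
    haveI : NeZero (ℓ : ℕ) := ⟨ℓ.2.ne_zero⟩
    have hpℓ : ¬ P.p ∣ (ℓ : ℕ) := fun hd =>
      hℓN ((Nat.prime_dvd_prime_iff_eq P.pp ℓ.2).mp hd ▸ Dvd.intro_left M rfl)
    have hTz : P.p • heckeOperatorBar (M * P.p) ℓ z = 0 := by
      rw [← map_nsmul, hz, map_zero]
    obtain ⟨hαC, hβC, hPC, hfinC, hFIC, hNC⟩ :=
      mzrh_heckeInputsC M ℓ (jcr_rho A₀ (s44f_A_liesOver P.p P.pp)) hpM hpℓ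
    haveI := hPC
    obtain ⟨κ, g, hκ, hg, hfg⟩ := hU _ _ _ (hHecke ℓ hℓN z _ hz (hspec z hz)) (hspec _ hTz)
    have hN0 : s35pe_normAlong (mzrh_alC kA M ℓ) (mzrh_beC kA M ℓ (s44e_fbar A₀ M P.p z)) ≠ 0 :=
      (hHecke ℓ hℓN z _ hz (hspec z hz)).1
    show m59sakd_delta P M hpM (heckeOperatorBar (M * P.p) ℓ z) =
      s44k2_TCp kA M ℓ (m59sakd_delta P M hpM z)
    rw [m59sakd_delta_def, m59sakd_delta_def, s44k2d_cls_congr hp0 hN0 hκ hg hfg,
      s44k2d_cls_corr (mzrh_beC kA M ℓ) (mzrh_alC kA M ℓ) hβC hαC hFIC hfinC hNC hp0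
        (hpdiv z hz hν0), s44k2_TCp_eq, s44k2_TC_eq hαC hβC hFIC hfinC hNC]

/-- **the field `oldK` of `m59sabg_Cells`** for `m59sa_frame2`, `ν = s44e_nu`, from (E2-ord) and (★★). -/
theorem m59sak_inst_oldK
    (hoff : haveI : Fact P.p.Prime := ⟨P.pp⟩
      s44e_OrdOff (s44f_A P.p P.pp) (s44f_A_liesOver P.p P.pp) M hpM)
    (hHecke : ∀ ℓ : Nat.Primes, ¬ (ℓ : ℕ) ∣ M * P.p → ∀ (z : JZero (M * P.p)) (fb : FF),
      P.p • z = 0 → s44e_Fbar A₀ M P.p z fb →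
      s44e_Fbar A₀ M P.p (heckeOperatorBar (M * P.p) ℓ z)
        (haveI : NeZero (ℓ : ℕ) := ⟨ℓ.2.ne_zero⟩
         s35pe_normAlong (mzrh_alC kA M ℓ) (mzrh_beC kA M ℓ fb))) :
    m59sabg_OldK_stmt (m59sa_frame2 P M hpM) (s44e_nu A₀ M P.p P.pp hpM) := by
  haveI : Fact P.p.Prime := ⟨P.pp⟩
  have hA := s44f_A_liesOver P.p P.pp
  have hmem := s44rd_hmem A₀ hA M hpM
  have hsurj := s44rd_hsurj A₀ hA M hpM
  haveI halg := jcr_isAlgClosed A₀
  refine m59sakg_oldK (δ := m59sakd_delta P M hpM) hpM (m59sa_frame2_A_liesOver (P := P) (M := M) (hpM := hpM))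
    (m59sakd_Delta_of P M hpM ?_ ?_ ?_ ?_ hHecke ?_)
    (fun z z' hz hz' => s44e_nu_add (s44f_A P.p P.pp) hA M hpM hz hz')
  · intro z hz
    exact s44e_fbar_exists A₀ P.pp hA M hmem hz
  · intro z fb fb' h h'
    obtain ⟨g, hg0, e⟩ := s44e_fbar_unique A₀ P.pp hA M hmem h h'
    refine ⟨1, g, one_ne_zero, hg0, ?_⟩
    rw [e, map_one, one_mul, mul_comm]
  · intro z z' fb fb' h h'
    exact s44e_fbar_mul A₀ P.pp hA M hmem h h'
  · intro z fb hz h Q hQ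
    exact s44e_ord_off_of_Fbar A₀ hA M hpM hoff h Q hQ
  · intro z fb hz h hpow
    obtain ⟨κ, g, hκ, hg, e⟩ := hpow
    obtain ⟨d, hd⟩ := IsAlgClosed.exists_pow_nat_eq κ P.pp.pos
    rw [m59sa_frame2_D1inf]
    refine s44e_depth_of_pow A₀ P.pp hA M hsurj h ⟨algebraMap kA FF d * g, ?_⟩
    rw [e, mul_pow, ← map_pow, hd]

/-- **the field `oldK`** for `m59sa_frame2`, `ν = s44e_nu`, `p` odd, `2 ∣ M`: closed. -/
theorem m59sak_oldK_frame2 (h2M : 2 ∣ M) :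
    m59sabg_OldK_stmt (m59sa_frame2 P M hpM) (s44e_nu A₀ M P.p P.pp hpM) := by
  haveI : Fact P.p.Prime := ⟨P.pp⟩
  refine m59sak_inst_oldK P M hpM
    (m59so_ord (s44f_A P.p P.pp) (s44f_A_liesOver P.p P.pp) M hpM P.hp2 h2M) ?_
  intro ℓ hℓN z fb hz h
  exact s44ha_fbar_hecke (s44f_A P.p P.pp) (s44f_A_liesOver P.p P.pp) M hpM ℓ hℓN h

end Main

end DeltaInst

end Fermat.Agent.M59
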