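import Fermat.Agent.M59.SinkA.Low.Seams
import Fermat.Agent.S44.Big.Seams
import Fermat.Agent.LR.NonEis.Main

/-!
# M59 / SINK A, cell [BIG-ASM] (helper20; prefix `m59sabg_`): twin of main's `S44/Big/Seams.lean`

`m59sa_Big_stmt Fr` from its sub-cells, generic in the frame `Fr : m59sa_Frame P M` over a package
`P : m59sa_Pkg` (an integral Weierstrass model `P.W` with `Δ ≠ 0`, an odd prime `P.p`).

Sub-cells (fields of `m59sabg_Cells`):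
* `mono`     [H2] MONO-MAIN  `k_i ν_i(V) = c` for all `i`;
* `heckeRes` [E3a]           `ν (T_ℓ z) = B_ℓ (ν z)`;
* `B_eis`    [E3] (R3)       `B_ℓ (1/k) = (ℓ + 1) (1/k)`;
* `ν_add`    [E2]            `ν` is additive on `J₀(N)[p]`;
* `oldK`     [E2] + [C2] OLD-k `¬ D1inf z`, `ν z = 0`, `T_ℓ z = a_ℓ z` ⟹ level `M`.
-/

set_option autoImplicit false

namespace Fermat.Agent.M59

open Fermat.Agent.S44 Fermat.Agent.S58
open WeierstrassCurve WeierstrassCurve.Affine WeierstrassCurve.Affine.Point ModularCurve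
open scoped WeierstrassCurve.Affine

section

variable {P : m59sa_Pkg} {M : ℕ} [NeZero M] [NeZero (M * P.p)] (Fr : m59sa_Frame P M)

/-- **[BIG-inf]**: [BIG] under the hypothesis `Ψ_{w_∞}(ι v) ≠ 0`. -/
def m59sabg_BigInf_stmt : Prop :=
  ∀ (ι : m59sa_PTors P →+ JZero (M * P.p)), m59sa_IsCopy P.W P.p (M * P.p) ι →
    ∀ (x v : m59sa_PTors P) (a : s44_G → ℕ) (β : s44_Qb), m59sa_IsLocBasis Fr x v a β →
      (∀ y : m59sa_PTors P, Fr.as (ι y) = 0 ∧ Fr.bs (ι y) = 0) →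
      Fr.Split (ι x) → ¬ Fr.D1inf (ι v) → P.ModularRepOfLevel M

/-- **[W-J]**, torsion form: the Atkin–Lehner involution `W_p` on `J₀(M p)[p]`. -/
structure m59sabg_IsALp (Wj : JZero (M * P.p) →+ JZero (M * P.p)) : Prop where
  invol : ∀ z, P.p • z = 0 → Wj (Wj z) = z
  smul : ∀ (σ : s44_G) (z : JZero (M * P.p)), Wj (σ • z) = σ • Wj z
  hecke : ∀ ℓ : Nat.Primes, ¬ (ℓ : ℕ) ∣ M * P.p → ∀ z : JZero (M * P.p), P.p • z = 0 →
    Wj (heckeOperatorBar (M * P.p) ℓ z) = heckeOperatorBar (M * P.p) ℓ (Wj z)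
  as_W : ∀ z, P.p • z = 0 → Fr.as (Wj z) = Fr.bs z
  bs_W : ∀ z, P.p • z = 0 → Fr.bs (Wj z) = Fr.as z
  d1inf_W : ∀ z, P.p • z = 0 → Fr.D1inf (Wj z) → Fr.D10 z
  split_W : ∀ z, P.p • z = 0 → Fr.Split z → Fr.Split (Wj z)

/-- [BIG] from [BIG-inf] and the Atkin–Lehner involution on `J₀(M p)[p]`. -/
theorem m59sabg_big_of_ALp (hI : m59sabg_BigInf_stmt Fr)
    (Wj : JZero (M * P.p) →+ JZero (M * P.p))
    (hW : m59sabg_IsALp Fr Wj) : m59sa_Big_stmt Fr := by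
  intro ι hι x v a β hb hold hsplit hv
  by_cases h1 : Fr.D1inf (ι v)
  swap
  · exact hI ι hι x v a β hb hold hsplit h1
  have hp : ∀ y : m59sa_PTors P, P.p • ι y = 0 := fun y => by
    rw [← map_nsmul, m59sa_tors_smul, _root_.map_zero]
  have hcopy : m59sa_IsCopy P.W P.p (M * P.p) (Wj.comp ι) :=
    { inj := by
        intro y y' h
        apply hι.inj
        have := congrArg Wj h
        simpa only [AddMonoidHom.comp_apply, hW.invol _ (hp y), hW.invol _ (hp y')] using this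
      equiv := fun σ y => by
        rw [AddMonoidHom.comp_apply, AddMonoidHom.comp_apply, hι.equiv, hW.smul]
      eigen := fun ℓ hg hℓN hℓp y => by
        rw [AddMonoidHom.comp_apply, ← hW.hecke ℓ hℓN (ι y) (hp y), hι.eigen ℓ hg hℓN hℓp y,
          map_zsmul] }
  refine hI (Wj.comp ι) hcopy x v a β hb (fun y => ?_) ?_ ?_
  · rw [AddMonoidHom.comp_apply, hW.as_W _ (hp y), hW.bs_W _ (hp y)]
    exact ⟨(hold y).2, (hold y).1⟩
  · exact hW.split_W _ (hp x) hsplit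
  · intro h2
    exact hv ⟨h1, hW.d1inf_W _ (hp v) h2⟩

variable {Sg : Type} (S : Finset ℕ) (k : Sg → ZMod P.p)
  (ν : JZero (M * P.p) → Sg → ZMod P.p)
  (B : Nat.Primes → (Sg → ZMod P.p) →+ (Sg → ZMod P.p))

/-- **[H2] MONO-MAIN**: `X` split and `χ`-eigen, `σ V = V + a(σ) X` on inertia with a peu-ramifié
cocycle `a` (datum `β`) ⟹ the weighted residues `k_i ν_i(V)` do not depend on the node `i`. -/
def m59sabg_Mono_stmt : Prop :=
  ∀ (X V : JZero (M * P.p)) (a : s44_G → ℕ) (β : s44_Qb),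
    P.p • X = 0 → P.p • V = 0 →
    Fr.as X = 0 → Fr.bs X = 0 → Fr.as V = 0 → Fr.bs V = 0 →
    Fr.ChiEigen X → (∀ σ ∈ Fr.Γ, σ • V = V + a σ • X) →
    β ≠ 0 → β ∈ Fr.A → β⁻¹ ∈ Fr.A → (∀ σ ∈ Fr.Γ, σ β = Fr.ζ ^ a σ * β) →
    Fr.Split X → ¬ Fr.D1inf V → ∃ c : ZMod P.p, ∀ i, k i * ν V i = c

/-- **[E3a] HECKE-RES**: `ν (T_ℓ z) = B_ℓ (ν z)` on `J₀(N)[p]` for `ℓ ∤ N`, `ℓ ∉ S`. -/
def m59sabg_HeckeRes_stmt : Prop :=
  ∀ ℓ : Nat.Primes, ¬ (ℓ : ℕ) ∣ M * P.p → (ℓ : ℕ) ∉ S → ∀ z : JZero (M * P.p), P.p • z = 0 →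
    ν (heckeOperatorBar (M * P.p) ℓ z) = B ℓ (ν z)

/-- **[E3] (R3)**: `B_ℓ (1/k) = (ℓ + 1) (1/k)` for `ℓ ∤ N`, `ℓ ∉ S`. -/
def m59sabg_BEis_stmt : Prop :=
  ∀ ℓ : Nat.Primes, ¬ (ℓ : ℕ) ∣ M * P.p → (ℓ : ℕ) ∉ S →
    B ℓ (fun i => (k i)⁻¹) = (((ℓ : ℕ) : ZMod P.p) + 1) • fun i => (k i)⁻¹

/-- **[E2] + [C2] OLD-k**: a `T_ℓ`-eigen class of `J₀(N)[p]` in `ker (α_*, β_*)`, with the
eigenvalues `a_ℓ(W)`, with `Ψ_{w_∞}(z) ≠ 0` and all residues `0` ⟹ level `M`. -/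
def m59sabg_OldK_stmt : Prop :=
  ∀ z : JZero (M * P.p), P.p • z = 0 → Fr.as z = 0 → Fr.bs z = 0 →
    (∀ ℓ : Nat.Primes, P.W.IsGoodPrimeFor ℓ → ¬ (ℓ : ℕ) ∣ M * P.p → (ℓ : ℕ) ≠ P.p →
      heckeOperatorBar (M * P.p) ℓ z = (P.W.apOfModel ℓ) • z) →
    ¬ Fr.D1inf z → ν z = 0 → P.ModularRepOfLevel M

/-- the sub-cells of [BIG-inf] -/
structure m59sabg_Cells : Prop where
  k_ne : ∀ i, k i ≠ 0
  ν_add : ∀ z z' : JZero (M * P.p), P.p • z = 0 → P.p • z' = 0 → ν (z + z') = ν z + ν z'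
  mono : m59sabg_Mono_stmt Fr k ν
  heckeRes : m59sabg_HeckeRes_stmt (M := M) S ν B
  B_eis : m59sabg_BEis_stmt (M := M) S k B
  oldK : m59sabg_OldK_stmt Fr ν

variable {Fr S k ν B}

theorem m59sabg_nu_zero (hC : m59sabg_Cells Fr S k ν B) : ν 0 = 0 := by
  have h := hC.ν_add 0 0 (smul_zero _) (smul_zero _)
  rw [add_zero] at h
  exact left_eq_add.1 h

theorem m59sabg_nu_nsmul (hC : m59sabg_Cells Fr S k ν B) (z : JZero (M * P.p))
    (hz : P.p • z = 0) (n : ℕ) : ν (n • z) = n • ν z := by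
  induction n with
  | zero => rw [zero_nsmul, zero_nsmul]; exact m59sabg_nu_zero hC
  | succ n ih =>
    have hnz : P.p • (n • z) = 0 := by rw [smul_comm, hz, smul_zero]
    rw [succ_nsmul, succ_nsmul, hC.ν_add _ _ hnz hz, ih]

theorem m59sabg_nu_neg (hC : m59sabg_Cells Fr S k ν B) (z : JZero (M * P.p))
    (hz : P.p • z = 0) : ν (-z) = -ν z := by
  have hnz : P.p • (-z) = 0 := by rw [neg_nsmul, hz, _root_.neg_zero]
  have h := hC.ν_add z (-z) hz hnz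
  rw [add_neg_cancel, m59sabg_nu_zero hC] at h
  exact (neg_eq_of_add_eq_zero_right h.symm).symm

theorem m59sabg_nu_zsmul (hC : m59sabg_Cells Fr S k ν B) (z : JZero (M * P.p))
    (hz : P.p • z = 0) (n : ℤ) : ν (n • z) = n • ν z := by
  obtain ⟨m, rfl | rfl⟩ := n.eq_nat_or_neg
  · rw [natCast_zsmul, natCast_zsmul, m59sabg_nu_nsmul hC z hz]
  · have hmz : P.p • (m • z) = 0 := by rw [smul_comm, hz, smul_zero]
    rw [neg_smul, neg_smul, natCast_zsmul, natCast_zsmul, m59sabg_nu_neg hC _ hmz,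
      m59sabg_nu_nsmul hC z hz]

/-- **[BIG-inf] from its sub-cells.** -/
theorem m59sabg_bigInf (hirr : P.W.ModRepIsIrreducible P.p)
    (hC : m59sabg_Cells Fr S k ν B) : m59sabg_BigInf_stmt Fr := by
  intro ι hι x v a β hb hold hsplit hv
  have hp : ∀ y : m59sa_PTors P, P.p • ι y = 0 := fun y => by
    rw [← map_nsmul, m59sa_tors_smul, _root_.map_zero]
  have heigX : Fr.ChiEigen (ι x) := by
    intro σ hσ n hn
    rw [← hι.equiv, hb.eig σ hσ n hn, map_nsmul]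
  have hext : ∀ σ ∈ Fr.Γ, σ • ι v = ι v + a σ • ι x := by
    intro σ hσ
    rw [← hι.equiv, hb.ext σ hσ, map_add, map_nsmul]
  obtain ⟨c, hc⟩ := hC.mono (ι x) (ι v) a β (hp x) (hp v) (hold x).1 (hold x).2 (hold v).1
    (hold v).2 heigX hext hb.β_ne hb.β_mem hb.β_inv_mem hb.β_eig hsplit hv
  -- [EIS]: the residue vector vanishes
  have hν : ν (ι v) = 0 := by
    rcases isEmpty_or_nonempty Sg with hE | hE
    · funext i
      exact (hE.false i).elim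
    have : Fact P.p.Prime := ⟨P.pp⟩
    obtain ⟨ℓ, hℓ, hgood, hℓS, hℓp, hnd⟩ :=
      Fermat.Agent.LR.lrv_exists_nonEis_prime P.W P.hΔ P.pp P.hp2 hirr
        (S ∪ (M * P.p).primeFactors)
    have hℓS' : ℓ ∉ S := fun h => hℓS (Finset.mem_union_left _ h)
    have hℓN : ¬ ℓ ∣ M * P.p := fun h =>
      hℓS (Finset.mem_union_right _ (Nat.mem_primeFactors.mpr ⟨hℓ, h, NeZero.ne _⟩))
    have hBr : B ⟨ℓ, hℓ⟩ (ν (ι v)) = ((P.W.apOfModel ℓ : ℤ) : ZMod P.p) • ν (ι v) := by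
      rw [← hC.heckeRes ⟨ℓ, hℓ⟩ hℓN hℓS' (ι v) (hp v), hι.eigen ⟨ℓ, hℓ⟩ hgood hℓN hℓp v,
        m59sabg_nu_zsmul hC _ (hp v)]
      funext i
      show (P.W.apOfModel ℓ) • ν (ι v) i = ((P.W.apOfModel ℓ : ℤ) : ZMod P.p) * ν (ι v) i
      rw [zsmul_eq_mul]
    refine (s44i_eis k hC.k_ne (B ⟨ℓ, hℓ⟩) (s44i_map_smul _) _
      (hC.B_eis ⟨ℓ, hℓ⟩ hℓN hℓS') (ν (ι v)) c hc _ hBr ?_).2
    intro heq
    apply hnd
    rw [← ZMod.intCast_zmod_eq_zero_iff_dvd]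
    push_cast
    show ((ℓ : ℕ) : ZMod P.p) + 1 - ((P.W.apOfModel ℓ : ℤ) : ZMod P.p) = 0
    rw [← heq, sub_self]
  exact hC.oldK (ι v) (hp v) (hold v).1 (hold v).2
    (fun ℓ hg hℓN hℓp => hι.eigen ℓ hg hℓN hℓp v) hv hν

/-- **[BIG] from its sub-cells and the Atkin–Lehner involution on `J₀(M p)[p]`.** -/
theorem m59sabg_big_ALp (hirr : P.W.ModRepIsIrreducible P.p)
    (hC : m59sabg_Cells Fr S k ν B) (Wj : JZero (M * P.p) →+ JZero (M * P.p))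
    (hW : m59sabg_IsALp Fr Wj) : m59sa_Big_stmt Fr :=
  m59sabg_big_of_ALp Fr (m59sabg_bigInf hirr hC) Wj hW

end

end Fermat.Agent.M59
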